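import Fermat.Agent.LT.T7.H963.Compress
import Fermat.Agent.LT.T2.H600.WhMean
import Fermat.Agent.LT.T2.H973.H546.LocEmb
import Fermat.Agent.LT.T2.H555.CartanInf
import Fermat.Agent.LT.T2.H944.BetaForm

/-!
# Row LT, tower T7, node `SimpleC`, leaf `StepArchC` of the cut of `CompressC` (helper258)

OFF-MAIN.  ADDITIVE.  Spec: `LT/T7/H963/Compress.lean` (helper963@be39ca583), byte-identical copy.

`stepArchC258 K : H963.StepArchC K`, UNCONDITIONAL:
at a complex place `w`, for `a` trivial at `w`, `h` supported at `w`, `f`, `χ` in the class,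
`⟨R(a) f, χ⟩ = 0 ⟹ ⟨R(a h) f, χ⟩ = 0`.

Proof.  `Φ(y) = ⟨R(a y) f, χ⟩`, `y` supported at `w`, is left invariant under `U(2)` (`χ` is right
invariant, `a` commutes with `y`, the pairing is invariant under right translations: `PairC`)
and right invariant under `U(2)` and the positive scalars (`f` is).  Cartan decomposition
(`svd555` of helper555): `h = k₁ torus(t) z k₂`.  Mean value property of `f` under the pairing
(Fubini, `fubini_rect600` of helper600): `4π Φ(torus t) = 4π (t / sinh t) Φ(1) = 0` for `t > 0`;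
`torus (-t) = s torus(t) s` with the swap `s ∈ U(2)`.
-/

set_option autoImplicit false
set_option linter.unusedSectionVars false
set_option linter.unusedVariables false

open IsDedekindDomain NumberField MeasureTheory AutomorphicForm
open Fermat.Agent.LT.H556.A0
open scoped ComplexConjugate

noncomputable section

namespace Fermat.Agent.LT.T7.H258

open Fermat.Agent.LT.T2.H941 Fermat.Agent.LT.T7.H963

variable {K : Type} [Field K] [NumberField K]

attribute [local instance] Fermat.Agent.LT.T2.borelG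

/-! ## 1. The pairing of right translates -/

/-- Left invariance: `⟨R(a k y) f, χ⟩ = ⟨R(a y) f, χ⟩` if `k` commutes with `a` and `χ` is right
invariant under `k`. -/
theorem pair_left258 (F : T2.Frame K) {f χ : G K → ℂ} (hf : IsAut0 f) (hχ : IsAut0 χ)
    {a k : G K} (hcomm : k * a = a * k) (hk : ∀ x : G K, χ (x * k) = χ x) (y : G K) :
    T2.pair F (rt (a * (k * y)) f) χ = T2.pair F (rt (a * y) f) χ := by
  have hP := (pair_uncond K F).2.2 k (rt (a * y) f) χ (isAut0_rt _ hf) hχ
  have h1 : rt k (rt (a * y) f) = rt (a * (k * y)) f := by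
    rw [rt_rt]
    congr 1
    rw [← mul_assoc, hcomm, mul_assoc]
  have h2 : rt k χ = χ := funext hk
  rw [h1, h2] at hP
  exact hP

/-- Right invariance. -/
theorem rt_right258 {f : G K → ℂ} {k : G K} (hk : ∀ x : G K, f (x * k) = f x) (g : G K) :
    rt (g * k) f = rt g f := by
  funext x
  show f (x * (g * k)) = f (x * g)
  rw [← mul_assoc]
  exact hk _

/-- **The mean value property under the pairing** (Fubini). -/
theorem pair_mean258 (F : T2.Frame K) {f χ : G K → ℂ} (hfc : Continuous f)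
    (hfb : ∃ C : ℝ, ∀ g : G K, ‖f g‖ ≤ C) (hχc : Continuous χ)
    (hχb : ∃ C : ℝ, ∀ g : G K, ‖χ g‖ ≤ C) (w : InfinitePlace K) (m : ℝ → ℂ)
    (hM : MeanEig f w m) (d : ℝ) (hd : 0 < d) (Y : ℝ → ℝ → G K)
    (hY : ∀ α β : ℝ, IsLocalAtInf w (Y α β) ∧ infComp w (Y α β) = rotZ α * rotY β * torus d)
    (a : G K) :
    (∫ α in (0 : ℝ)..(2 * Real.pi), ∫ β in (0 : ℝ)..Real.pi,
        T2.pair F (rt (a * Y α β) f) χ * ((Real.sin β : ℝ) : ℂ))
      = m d * T2.pair F (rt a f) χ := by
  have hB : BorelSpace (G K) := ⟨rfl⟩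
  obtain ⟨C, hC⟩ := hfb
  obtain ⟨C', hC'⟩ := hχb
  have hfin : IsFiniteMeasure (F.μ.restrict F.D) :=
    ⟨by rw [Measure.restrict_apply_univ]; exact F.fin⟩
  have hYc := T2.H600.continuous_family600 w d Y hY
  set Fn : G K → ℝ → ℝ → ℂ := fun x α β =>
    f (x * (a * Y α β)) * (starRingEnd ℂ) (χ x) * ((Real.sin β : ℝ) : ℂ) with hFdef
  have hFc : Continuous fun q : (ℝ × ℝ) × G K => Fn q.2 q.1.1 q.1.2 := by
    have h1 : Continuous fun q : (ℝ × ℝ) × G K => q.2 * (a * Y q.1.1 q.1.2) :=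
      continuous_snd.mul (continuous_const.mul (hYc.comp continuous_fst))
    have h2 : Continuous fun q : (ℝ × ℝ) × G K => (starRingEnd ℂ) (χ q.2) :=
      Complex.continuous_conj.comp (hχc.comp continuous_snd)
    have h3 : Continuous fun q : (ℝ × ℝ) × G K => ((Real.sin q.1.2 : ℝ) : ℂ) :=
      Complex.continuous_ofReal.comp
        (Real.continuous_sin.comp (continuous_snd.comp continuous_fst))
    exact ((hfc.comp h1).mul h2).mul h3
  have hFb : ∀ x a' b', ‖Fn x a' b'‖ ≤ |C| * |C'| := by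
    intro x a' b'
    simp only [hFdef, norm_mul, RCLike.norm_conj, Complex.norm_real, Real.norm_eq_abs]
    calc ‖f (x * (a * Y a' b'))‖ * ‖χ x‖ * |Real.sin b'|
        ≤ |C| * |C'| * 1 := by
          refine mul_le_mul (mul_le_mul ((hC _).trans (le_abs_self C))
            ((hC' _).trans (le_abs_self C')) (norm_nonneg _) (abs_nonneg _))
            (Real.abs_sin_le_one b') (abs_nonneg _) (by positivity)
      _ = |C| * |C'| := mul_one _
  have hswap := T2.H600.fubini_rect600 (F.μ.restrict F.D) Fn hFc (|C| * |C'|) hFb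
    (a₁ := 0) (a₂ := 2 * Real.pi) (b₁ := 0) (b₂ := Real.pi)
    (by positivity) Real.pi_pos.le
  have hL : (∫ α in (0 : ℝ)..(2 * Real.pi), ∫ β in (0 : ℝ)..Real.pi,
        T2.pair F (rt (a * Y α β) f) χ * ((Real.sin β : ℝ) : ℂ))
      = ∫ α in (0 : ℝ)..(2 * Real.pi), ∫ β in (0 : ℝ)..Real.pi,
          ∫ x, Fn x α β ∂(F.μ.restrict F.D) := by
    refine intervalIntegral.integral_congr fun α _ => ?_
    refine intervalIntegral.integral_congr fun β _ => ?_
    show T2.pair F (rt (a * Y α β) f) χ * ((Real.sin β : ℝ) : ℂ)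
      = ∫ x, Fn x α β ∂(F.μ.restrict F.D)
    rw [T2.pair, ← integral_mul_const]
    rfl
  have hR : ∀ x : G K, (∫ α in (0 : ℝ)..(2 * Real.pi), ∫ β in (0 : ℝ)..Real.pi, Fn x α β)
      = m d * (f (x * a) * (starRingEnd ℂ) (χ x)) := by
    intro x
    have h := hM d hd Y hY (x * a)
    have h' : (∫ α in (0 : ℝ)..(2 * Real.pi), ∫ β in (0 : ℝ)..Real.pi, Fn x α β)
        = (∫ α in (0 : ℝ)..(2 * Real.pi), ∫ β in (0 : ℝ)..Real.pi,
            f (x * a * Y α β) * ((Real.sin β : ℝ) : ℂ))
          * (starRingEnd ℂ) (χ x) := by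
      rw [← intervalIntegral.integral_mul_const]
      refine intervalIntegral.integral_congr fun α _ => ?_
      show (∫ β in (0 : ℝ)..Real.pi, Fn x α β) = _
      rw [← intervalIntegral.integral_mul_const]
      refine intervalIntegral.integral_congr fun β _ => ?_
      show Fn x α β = _
      simp only [hFdef, mul_assoc]
      ring
    rw [h', h]
    ring
  rw [hL, hswap]
  simp only [hR]
  rw [integral_const_mul]
  rfl

/-! ## 2. Elements of `GL₂(ℂ)` -/

/-- The element of `GL₂(ℂ)` with the matrix `M`. -/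
def gl258 (M : Matrix (Fin 2) (Fin 2) ℂ) (h : M.det ≠ 0) : GL (Fin 2) ℂ :=
  Matrix.GeneralLinearGroup.mkOfDetNeZero M h

theorem coe_gl258 (M : Matrix (Fin 2) (Fin 2) ℂ) (h : M.det ≠ 0) :
    ((gl258 M h : GL (Fin 2) ℂ) : Matrix (Fin 2) (Fin 2) ℂ) = M := rfl

theorem gl258_mul (M N : Matrix (Fin 2) (Fin 2) ℂ) (hM : M.det ≠ 0) (hN : N.det ≠ 0)
    (hMN : (M * N).det ≠ 0) : gl258 (M * N) hMN = gl258 M hM * gl258 N hN := by
  apply Units.ext
  rfl

theorem gl258_congr {M N : Matrix (Fin 2) (Fin 2) ℂ} (e : M = N) (hM : M.det ≠ 0)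
    (hN : N.det ≠ 0) : gl258 M hM = gl258 N hN := by
  subst e
  rfl

theorem det_ne_zero_of_unitary258 {k : Matrix (Fin 2) (Fin 2) ℂ}
    (hk : k * k.conjTranspose = 1) : k.det ≠ 0 := by
  have h := congrArg Matrix.det hk
  rw [Matrix.det_mul, Matrix.det_one] at h
  exact left_ne_zero_of_mul_eq_one h

theorem unitary_mul258 {k k' : Matrix (Fin 2) (Fin 2) ℂ} (hk : k * k.conjTranspose = 1)
    (hk' : k' * k'.conjTranspose = 1) : (k * k') * (k * k').conjTranspose = 1 := by
  rw [Matrix.conjTranspose_mul, Matrix.mul_assoc, ← Matrix.mul_assoc k', hk', Matrix.one_mul, hk]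

theorem unitary_diag258 (u v : ℂ) (hu : u * (starRingEnd ℂ) u = 1)
    (hv : v * (starRingEnd ℂ) v = 1) :
    (!![u, 0; 0, v] : Matrix (Fin 2) (Fin 2) ℂ) * (!![u, 0; 0, v]).conjTranspose = 1 := by
  ext i j
  fin_cases i <;> fin_cases j <;>
    simp [Matrix.mul_apply, Fin.sum_univ_two, Matrix.conjTranspose_apply, hu, hv]

theorem unitary_rot258 (c s : ℂ) (hc : (starRingEnd ℂ) c = c) (hs : (starRingEnd ℂ) s = s)
    (h : c * c + s * s = 1) :
    (!![c, -s; s, c] : Matrix (Fin 2) (Fin 2) ℂ) * (!![c, -s; s, c]).conjTranspose = 1 := by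
  ext i j
  fin_cases i <;> fin_cases j
  · simp [Matrix.mul_apply, Fin.sum_univ_two, Matrix.conjTranspose_apply, hc, hs]
    linear_combination h
  · simp [Matrix.mul_apply, Fin.sum_univ_two, Matrix.conjTranspose_apply, hc, hs]
    ring
  · simp [Matrix.mul_apply, Fin.sum_univ_two, Matrix.conjTranspose_apply, hc, hs]
    ring
  · simp [Matrix.mul_apply, Fin.sum_univ_two, Matrix.conjTranspose_apply, hc, hs]
    linear_combination h

theorem exp_mul_conj258 (z : ℂ) (hz : (starRingEnd ℂ) z = -z) :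
    Complex.exp z * (starRingEnd ℂ) (Complex.exp z) = 1 := by
  rw [← Complex.exp_conj, ← Complex.exp_add, hz, add_neg_cancel, Complex.exp_zero]

theorem unitary_rotZ258 (α : ℝ) : rotZ α * (rotZ α).conjTranspose = 1 := by
  have hz : (starRingEnd ℂ) (Complex.I * ((α / 2 : ℝ) : ℂ)) = -(Complex.I * ((α / 2 : ℝ) : ℂ)) := by
    rw [map_mul, Complex.conj_I, Complex.conj_ofReal, neg_mul]
  have hz' : (starRingEnd ℂ) (-(Complex.I * ((α / 2 : ℝ) : ℂ)))
      = -(-(Complex.I * ((α / 2 : ℝ) : ℂ))) := by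
    rw [map_neg, hz]
  exact unitary_diag258 _ _ (exp_mul_conj258 _ hz) (exp_mul_conj258 _ hz')

theorem unitary_rotY258 (β : ℝ) : rotY β * (rotY β).conjTranspose = 1 := by
  have h := Real.cos_sq_add_sin_sq (β / 2)
  have hc : ((Real.cos (β / 2) : ℝ) : ℂ) * ((Real.cos (β / 2) : ℝ) : ℂ)
      + ((Real.sin (β / 2) : ℝ) : ℂ) * ((Real.sin (β / 2) : ℝ) : ℂ) = 1 := by
    rw [← Complex.ofReal_mul, ← Complex.ofReal_mul, ← Complex.ofReal_add]
    rw [show Real.cos (β / 2) * Real.cos (β / 2) + Real.sin (β / 2) * Real.sin (β / 2) = 1 by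
      nlinarith [h]]
    exact Complex.ofReal_one
  exact unitary_rot258 _ _ (Complex.conj_ofReal _) (Complex.conj_ofReal _) hc

/-- The swap. -/
def swap258 : Matrix (Fin 2) (Fin 2) ℂ := !![0, 1; 1, 0]

theorem unitary_swap258 : swap258 * swap258.conjTranspose = 1 := by
  ext i j
  fin_cases i <;> fin_cases j <;>
    simp [swap258, Matrix.mul_apply, Fin.sum_univ_two, Matrix.conjTranspose_apply]

theorem swap_torus258 (t : ℝ) : swap258 * torus t * swap258 = torus (-t) := by
  ext i j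
  fin_cases i <;> fin_cases j <;>
    simp [swap258, torus, Matrix.mul_apply, Fin.sum_univ_two, neg_div]

theorem torus_zero258 : torus 0 = 1 := by
  ext i j
  fin_cases i <;> fin_cases j <;> simp [torus]

theorem det_torus_ne258 (t : ℝ) : (torus t).det ≠ 0 := by
  rw [T2.H973.det_torus944]
  exact one_ne_zero

theorem det_scal_ne258 {c : ℝ} (hc : 0 < c) :
    (Matrix.diagonal (fun _ : Fin 2 => ((c : ℝ) : ℂ))).det ≠ 0 := by
  rw [Matrix.det_diagonal, Fin.prod_univ_two]
  have : ((c : ℝ) : ℂ) ≠ 0 := Complex.ofReal_ne_zero.mpr hc.ne'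
  exact mul_ne_zero this this

/-- `diag(d₀, d₁) = torus(t) · c` for positive `d₀`, `d₁`. -/
theorem diag_eq_torus258 (d : Fin 2 → ℝ) (hd : ∀ i, 0 < d i) :
    ∃ t c : ℝ, 0 < c ∧ Matrix.diagonal (fun i => ((d i : ℝ) : ℂ))
      = torus t * Matrix.diagonal (fun _ : Fin 2 => ((c : ℝ) : ℂ)) := by
  set e : ℝ := Real.sqrt (d 0 / d 1) with he
  have hq : 0 < d 0 / d 1 := div_pos (hd 0) (hd 1)
  have he0 : 0 < e := Real.sqrt_pos.mpr hq
  have hee : e * e = d 0 / d 1 := Real.mul_self_sqrt hq.le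
  refine ⟨2 * Real.log e, d 1 * e, mul_pos (hd 1) he0, ?_⟩
  have h1 : Real.exp (2 * Real.log e / 2) = e := by
    rw [mul_div_cancel_left₀ _ (two_ne_zero), Real.exp_log he0]
  have h2 : Real.exp (-(2 * Real.log e / 2)) = e⁻¹ := by
    rw [Real.exp_neg, h1]
  have hd1 : d 1 ≠ 0 := (hd 1).ne'
  have e0 : d 0 = e * (d 1 * e) := by
    have : e * (d 1 * e) = d 1 * (e * e) := by ring
    rw [this, hee]
    field_simp
  have e1 : d 1 = e⁻¹ * (d 1 * e) := by
    field_simp
  ext i j
  fin_cases i <;> fin_cases j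
  · simp only [torus, h1, h2, Fin.zero_eta, Fin.isValue, Matrix.diagonal_apply_eq,
      Matrix.mul_apply, Fin.sum_univ_two, Matrix.of_apply, Matrix.cons_val', Matrix.cons_val_zero,
      Matrix.cons_val_one, Matrix.cons_val_fin_one, Matrix.diagonal_apply_ne, ne_eq,
      one_ne_zero, not_false_eq_true, mul_zero, add_zero, Fin.mk_zero]
    rw [← Complex.ofReal_mul, ← e0]
  · simp [torus, Matrix.mul_apply, Fin.sum_univ_two]
  · simp [torus, Matrix.mul_apply, Fin.sum_univ_two]
  · simp only [torus, h1, h2, Fin.mk_one, Fin.isValue, Matrix.diagonal_apply_eq,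
      Matrix.mul_apply, Fin.sum_univ_two, Matrix.of_apply, Matrix.cons_val', Matrix.cons_val_zero,
      Matrix.cons_val_one, Matrix.cons_val_fin_one, Matrix.diagonal_apply_ne, ne_eq,
      zero_ne_one, not_false_eq_true, mul_zero, zero_add]
    rw [← Complex.ofReal_mul, ← e1]

/-- `∫₀^{2π} ∫₀^π c sin β dβ dα = 4π c`. -/
theorem integral_const_sin258 (c : ℂ) :
    (∫ α in (0 : ℝ)..(2 * Real.pi), ∫ β in (0 : ℝ)..Real.pi, c * ((Real.sin β : ℝ) : ℂ))
      = c * ((4 * Real.pi : ℝ) : ℂ) := by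
  have h1 : (∫ β in (0 : ℝ)..Real.pi, c * ((Real.sin β : ℝ) : ℂ)) = c * 2 := by
    rw [intervalIntegral.integral_const_mul, intervalIntegral.integral_ofReal, integral_sin]
    simp
    norm_num
  simp only [h1]
  rw [intervalIntegral.integral_const, Complex.real_smul]
  push_cast
  ring

/-! ## 3. The leaf -/

/-- **LEAF `StepArchC`** of the cut of `CompressC` (helper963), UNCONDITIONAL. -/
theorem stepArchC258 (K : Type) [Field K] [NumberField K] : StepArchC K := by
  intro hcx F 𝔫 r l o C h𝔫 hr ho hC w a h haw hh f χ hf hχ h0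
  obtain ⟨j, ι, hj⟩ := T2.H973.H546.locEmbC_h546 K w (hcx w)
  have hfA : IsAut0 f := isAut0_of_isEigFn hcx h𝔫 hC hf
  have hχA : IsAut0 χ := isAut0_of_isEigFn hcx h𝔫 hC hχ
  have hnr : ¬ w.IsReal := InfinitePlace.not_isReal_iff_isComplex.mpr (hcx w)
  have hcompact : ∀ (k : Matrix (Fin 2) (Fin 2) ℂ) (hk : k * k.conjTranspose = 1)
      (hkd : k.det ≠ 0), IsArchCompact w (j (gl258 k hkd)) := by
    intro k hk hkd
    refine ⟨hj.loc _, ?_, fun hr => absurd hr hnr⟩
    rw [hj.comp, coe_gl258]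
    exact hk
  have hχinv : ∀ k : G K, IsArchCompact w k → ∀ x : G K, χ (x * k) = χ x := by
    intro k hk x
    have h1 := hχ.inv.cusp.aut.arch_compact w k hk x
    rw [h1]
    show (1 : ℂ) * χ x = χ x
    rw [one_mul]
  have hfinv : ∀ k : G K, IsArchCompact w k → ∀ x : G K, f (x * k) = f x := by
    intro k hk x
    have h1 := hf.inv.cusp.aut.arch_compact w k hk x
    rw [h1]
    show (1 : ℂ) * f x = f x
    rw [one_mul]
  have hcomm : ∀ g : GL (Fin 2) ℂ, j g * a = a * j g := fun g => hj.comm g a haw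
  have hL : ∀ (k : Matrix (Fin 2) (Fin 2) ℂ) (hk : k * k.conjTranspose = 1) (hkd : k.det ≠ 0)
      (y : G K), T2.pair F (rt (a * (j (gl258 k hkd) * y)) f) χ = T2.pair F (rt (a * y) f) χ :=
    fun k hk hkd y => pair_left258 F hfA hχA (hcomm _) (hχinv _ (hcompact k hk hkd)) y
  -- the torus, `t > 0`: the mean value property
  have hpos : ∀ t : ℝ, 0 < t →
      T2.pair F (rt (a * j (gl258 (torus t) (det_torus_ne258 t))) f) χ = 0 := by
    intro t ht
    set Y : ℝ → ℝ → G K := fun α β =>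
      j (gl258 (rotZ α * rotY β * torus t) (T2.H973.det_sphere944 α β t)) with hYdef
    have hY : ∀ α β : ℝ, IsLocalAtInf w (Y α β) ∧
        infComp w (Y α β) = rotZ α * rotY β * torus t :=
      fun α β => ⟨hj.loc _, by rw [hj.comp, coe_gl258]⟩
    have hmean := pair_mean258 F hf.inv.cusp.cont hf.inv.cusp.bdd hχ.inv.cusp.cont
      hχ.inv.cusp.bdd w (C.m w) (hf.mean w) t ht Y hY a
    rw [h0, mul_zero] at hmean
    have hterm : ∀ α β : ℝ, T2.pair F (rt (a * Y α β) f) χ
        = T2.pair F (rt (a * j (gl258 (torus t) (det_torus_ne258 t))) f) χ := by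
      intro α β
      have hU := unitary_mul258 (unitary_rotZ258 α) (unitary_rotY258 β)
      have hR := det_ne_zero_of_unitary258 hU
      have hYeq : Y α β = j (gl258 (rotZ α * rotY β) hR)
          * j (gl258 (torus t) (det_torus_ne258 t)) := by
        rw [← map_mul, ← gl258_mul]
      rw [hYeq]
      exact hL _ hU hR _
    simp only [hterm] at hmean
    rw [integral_const_sin258] at hmean
    rcases mul_eq_zero.mp hmean with h' | h'
    · exact h'
    · exfalso
      have : (4 * Real.pi : ℝ) ≠ 0 := by positivity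
      exact this (Complex.ofReal_eq_zero.mp h')
  -- the torus, all `t`
  have hall : ∀ t : ℝ,
      T2.pair F (rt (a * j (gl258 (torus t) (det_torus_ne258 t))) f) χ = 0 := by
    intro t
    rcases lt_trichotomy 0 t with ht | ht | ht
    · exact hpos t ht
    · subst ht
      have h1 : gl258 (torus 0) (det_torus_ne258 0) = 1 := by
        apply Units.ext
        exact torus_zero258
      rw [h1, map_one, mul_one]
      exact h0
    · have hs := det_ne_zero_of_unitary258 unitary_swap258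
      have h1 : gl258 (torus t) (det_torus_ne258 t)
          = gl258 swap258 hs * (gl258 (torus (-t)) (det_torus_ne258 (-t)) * gl258 swap258 hs) := by
        apply Units.ext
        show torus t = swap258 * (torus (-t) * swap258)
        rw [← Matrix.mul_assoc, swap_torus258, neg_neg]
      rw [h1, map_mul, map_mul, hL _ unitary_swap258 hs, ← mul_assoc,
        rt_right258 (hfinv _ (hcompact _ unitary_swap258 hs))]
      exact hpos (-t) (neg_pos.mpr ht)
  -- Cartan decomposition of `h`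
  have hMd : (infComp w h).det ≠ 0 := T2.H472.det_infComp_ne_zero472 w h
  obtain ⟨k₁, k₂, d, hk₁, hk₂, hdpos, hMeq⟩ := T2.H555.svd555 (infComp w h) hMd
  obtain ⟨t, c, hc, hD⟩ := diag_eq_torus258 d hdpos
  have hk₁d := det_ne_zero_of_unitary258 hk₁
  have hk₂d := det_ne_zero_of_unitary258 hk₂
  have hh1 : h = j (gl258 (infComp w h) hMd) :=
    T2.H429.eq_of_isLocalAtInf429 hh (hj.loc _) (by rw [hj.comp, coe_gl258])
  have hh2 : gl258 (infComp w h) hMd
      = gl258 k₁ hk₁d * ((gl258 (torus t) (det_torus_ne258 t)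
          * gl258 (Matrix.diagonal (fun _ : Fin 2 => ((c : ℝ) : ℂ))) (det_scal_ne258 hc))
          * gl258 k₂ hk₂d) := by
    apply Units.ext
    show infComp w h = k₁ * ((torus t * Matrix.diagonal (fun _ : Fin 2 => ((c : ℝ) : ℂ))) * k₂)
    rw [← hD, ← Matrix.mul_assoc]
    exact hMeq
  have hZ : IsArchPosScalar w
      (j (gl258 (Matrix.diagonal (fun _ : Fin 2 => ((c : ℝ) : ℂ))) (det_scal_ne258 hc))) :=
    ⟨hj.loc _, c, hc, by rw [hj.comp, coe_gl258]⟩
  rw [hh1, hh2, map_mul, map_mul, map_mul, hL _ hk₁ hk₁d, ← mul_assoc, ← mul_assoc,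
    rt_right258 (hfinv _ (hcompact _ hk₂ hk₂d)),
    rt_right258 (fun x => hf.inv.arch_scalar w _ hZ x)]
  exact hall t

end Fermat.Agent.LT.T7.H258

end
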